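/-
Programme S33, brick O1c (770), part (1) (helper64): **no LOCAL Hopf order on a constant group of
order divisible by `p` over an UNRAMIFIED base, `p` odd.**  Mathlib only.

Setting: `W` a noetherian domain, `Ω ⊇ W` a field, `P ⊆ Ω` a subring containing every element integral
over `W`, in which `p` is not a unit (e.g. `W` the inertia-fixed integers of `ℚ̄_p`, `P` all integers).
`C` a finite abelian group, `H ⊆ (C → W)` a `W`-subalgebra of `W`-VALUED functions (this is what an order
in the function algebra of a group with TRIVIAL inertia action is, when `P^I = W`) which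

* has full rank      `hFR  : ∃ d ≠ 0, ∀ f : C → W, d • f ∈ H`,
* is `Δ`-closed      `hΔ   : h (x + y) = ∑ i, a i x * b i y` with `a i, b i ∈ H`,
* is local, with `p` a uniformiser of the base: `hloc : p ∣ h x - h 0` **in `W`**.

Then `C` has no element `c` with `p • c = 0` on which some additive character `χ : C → Ωˣ` is
nontrivial (`not_local_of_trivial`); in particular `C` has no element of order `p` when `Ω` has
enough roots of unity.

Proof (operator form of the duality argument of report 1237): translation `T_c` preserves `H`, and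
`U := (T_c - 1)/p` ALSO preserves `H` (locality + `Δ`).  `H` is a finite `W`-module, so `U` is killed
by a monic `q ∈ W[X]` (Cayley–Hamilton).  `χ` lies in the `Ω`-span of `H` (full rank) and is an
eigenvector of `U` with eigenvalue `y = (χ c - 1)/p`; hence `q(y) = 0`, `y` is integral over `W`,
`y ∈ P`.  But `ζ = χ c = 1 + p y` is a nontrivial `p`-th root of unity, and
`0 = ∑_{i<p} ζ^i = p (1 + p z)` with `z ∈ P` (`p` odd) makes `p` a unit of `P`
(`isUnit_of_one_add_mul_pow_eq_one`).
-/
import Mathlib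

set_option autoImplicit false
set_option linter.unusedSectionVars false
set_option linter.style.haveILetI false

open Polynomial

noncomputable section

namespace Fermat.Agent.S33P.HopfExcl64

/-! ### The cyclotomic contradiction -/

/-- In a domain `R` in which the odd prime `p` is nonzero: if `1 + p y` is a nontrivial `p`-th root
of unity then `p` is a unit.  (`v(ζ - 1) = v(p)/(p-1) < v(p)` for `p ≥ 3`.) -/
theorem isUnit_of_one_add_mul_pow_eq_one {R : Type*} [CommRing R] [IsDomain R] {p : ℕ}
    (hp : p.Prime) (hp2 : p ≠ 2) (hp0 : (p : R) ≠ 0) {y : R} (hy : y ≠ 0)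
    (h : (1 + (p : R) * y) ^ p = 1) : ∃ z : R, (p : R) * z = 1 := by
  set ζ : R := 1 + (p : R) * y with hζ
  have hζ1 : ζ - 1 ≠ 0 := by
    rw [hζ, add_sub_cancel_left]
    exact mul_ne_zero hp0 hy
  -- `∑ ζ^i = 0`
  have hsum : ∑ i ∈ Finset.range p, ζ ^ i = 0 := by
    have := mul_geom_sum ζ p
    rw [h, sub_self] at this
    exact (mul_eq_zero.1 this).resolve_left hζ1
  -- binomial expansion of every `ζ^i`
  have hexp : ∀ i : ℕ, ∃ k : R, ζ ^ i = 1 + (i : R) * ((p : R) * y) + k * ((p : R) * y) ^ 2 := by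
    intro i
    obtain ⟨k, hk⟩ := Polynomial.binomExpansion (X ^ i : R[X]) 1 ((p : R) * y)
    refine ⟨k, ?_⟩
    simpa [hζ, Polynomial.derivative_X_pow] using hk
  choose k hk using hexp
  -- `p = 2 m + 1`
  obtain ⟨m, hm⟩ : ∃ m : ℕ, p = 2 * m + 1 := by
    rcases hp.eq_two_or_odd with h2 | hodd
    · exact absurd h2 hp2
    · exact ⟨p / 2, by omega⟩
  have hsumid : (∑ i ∈ Finset.range p, (i : R)) = (p : R) * (m : R) := by
    have h2 := Finset.sum_range_id_mul_two p
    have h3 : ∑ i ∈ Finset.range p, i = p * m := by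
      have : p * (p - 1) = (p * m) * 2 := by
        rw [hm]; simp only [Nat.add_sub_cancel]; ring
      rw [this] at h2
      exact Nat.eq_of_mul_eq_mul_right (by norm_num) h2
    rw [← Nat.cast_sum, h3, Nat.cast_mul]
  have key : (p : R) * (1 + (p : R) * ((m : R) * y + (∑ i ∈ Finset.range p, k i) * y ^ 2)) = 0 := by
    have h1 : ∑ i ∈ Finset.range p, ζ ^ i =
        ∑ i ∈ Finset.range p, (1 + (i : R) * ((p : R) * y) + k i * ((p : R) * y) ^ 2) :=
      Finset.sum_congr rfl fun i _ => hk i
    rw [hsum, Finset.sum_add_distrib, Finset.sum_add_distrib, Finset.sum_const, Finset.card_range,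
      ← Finset.sum_mul, ← Finset.sum_mul, hsumid, nsmul_eq_mul, mul_one] at h1
    rw [h1]
    ring
  have h2 := (mul_eq_zero.1 key).resolve_left hp0
  refine ⟨-((m : R) * y + (∑ i ∈ Finset.range p, k i) * y ^ 2), ?_⟩
  linear_combination (-1 : R) * h2

/-! ### Polynomials in intertwined endomorphisms -/

section Intertwine

variable {R S N M : Type*} [CommRing R] [CommRing S] [Algebra R S] [AddCommGroup N] [Module R N]
  [AddCommGroup M] [Module R M] [Module S M] [IsScalarTower R S M]

/-- If `ι ∘ f = g ∘ ι` then `ι ∘ q(f) = q(g) ∘ ι` (`f` is `R`-linear on `N`, `g` is `S`-linear on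
`M`, `q ∈ R[X]`). -/
theorem map_aeval_apply (ι : N →ₗ[R] M) (f : Module.End R N) (g : Module.End S M)
    (hfg : ∀ n, ι (f n) = g (ι n)) (q : R[X]) (n : N) :
    ι (aeval f q n) = aeval g q (ι n) := by
  have hpow : ∀ (i : ℕ) (n : N), ι ((f ^ i) n) = (g ^ i) (ι n) := by
    intro i
    induction i with
    | zero => intro n; simp
    | succ i ih =>
      intro n
      rw [pow_succ, pow_succ, Module.End.mul_apply, Module.End.mul_apply, ih, hfg]
  rw [aeval_eq_sum_range, aeval_eq_sum_range, LinearMap.sum_apply, LinearMap.sum_apply, map_sum]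
  refine Finset.sum_congr rfl fun i _ => ?_
  rw [LinearMap.smul_apply, LinearMap.smul_apply, map_smul, hpow]

/-- Polynomials in an endomorphism act on an eigenvector through the eigenvalue. -/
theorem aeval_apply_of_apply_eq_smul (g : Module.End S M) {v : M} {y : S} (hv : g v = y • v)
    (q : R[X]) : aeval g q v = aeval y q • v := by
  have hpow : ∀ i : ℕ, (g ^ i) v = y ^ i • v := by
    intro i
    induction i with
    | zero => simp
    | succ i ih =>
      rw [pow_succ, Module.End.mul_apply, hv, map_smul, ih, smul_smul, pow_succ, mul_comm]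
  rw [aeval_eq_sum_range, aeval_eq_sum_range, LinearMap.sum_apply, Finset.sum_smul]
  refine Finset.sum_congr rfl fun i _ => ?_
  rw [LinearMap.smul_apply, hpow, smul_assoc]

end Intertwine

/-! ### The main theorem -/

section Main

variable {W : Type*} [CommRing W] [IsDomain W] [IsNoetherianRing W]
  {Ω : Type*} [Field Ω] [Algebra W Ω]
  {C : Type*} [AddCommGroup C] [Finite C]

/-- `W`-valued functions as `Ω`-valued functions. -/
def toΩ (W Ω C : Type*) [CommRing W] [Field Ω] [Algebra W Ω] : (C → W) →ₗ[W] (C → Ω) :=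
  (Algebra.linearMap W Ω).compLeft C

@[simp] theorem toΩ_apply (f : C → W) (x : C) : toΩ W Ω C f x = algebraMap W Ω (f x) := rfl

/-- The difference operator `(T_c - 1)/p` on `Ω`-valued functions. -/
def diffOp (Ω : Type*) [Field Ω] {C : Type*} [AddCommGroup C] (p : ℕ) (c : C) :
    Module.End Ω (C → Ω) where
  toFun f x := (f (x + c) - f x) * (p : Ω)⁻¹
  map_add' f g := by
    funext x
    simp only [Pi.add_apply]
    ring
  map_smul' a f := by
    funext x
    simp only [Pi.smul_apply, smul_eq_mul, RingHom.id_apply]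
    ring

@[simp] theorem diffOp_apply (p : ℕ) (c : C) (f : C → Ω) (x : C) :
    diffOp Ω p c f x = (f (x + c) - f x) * (p : Ω)⁻¹ := rfl

variable {p : ℕ}

/-- Translation by `c` minus the identity is divisible by `p` on a local `Δ`-closed order. -/
theorem exists_diff_eq_mul (H : Subalgebra W (C → W))
    (hΔ : ∀ h ∈ H, ∃ (n : ℕ) (a b : Fin n → (C → W)), (∀ i, a i ∈ H) ∧ (∀ i, b i ∈ H) ∧
      ∀ x y, h (x + y) = ∑ i, a i x * b i y)
    (hloc : ∀ h ∈ H, ∀ x, (p : W) ∣ h x - h 0) (c : C) {h : C → W} (hh : h ∈ H) :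
    ∃ g ∈ H, ∀ x, h (x + c) - h x = (p : W) * g x := by
  obtain ⟨n, a, b, ha, hb, hab⟩ := hΔ h hh
  choose w hw using fun i => hloc (b i) (hb i) c
  refine ⟨∑ i, w i • a i, Subalgebra.sum_mem _ fun i _ => Subalgebra.smul_mem _ (ha i) _, ?_⟩
  intro x
  have h1 := hab x c
  have h2 := hab x 0
  rw [add_zero] at h2
  rw [h1, h2, ← Finset.sum_sub_distrib, Finset.sum_apply, Finset.mul_sum]
  refine Finset.sum_congr rfl fun i _ => ?_
  rw [Pi.smul_apply, smul_eq_mul, ← mul_sub, hw i]
  ring

/-- **No local Hopf order with trivial inertia action over an unramified base** (`p` odd). -/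
theorem not_local_of_trivial (P : Subring Ω) (hPint : ∀ x : Ω, IsIntegral W x → x ∈ P)
    (hp : p.Prime) (hp2 : p ≠ 2) (hp0 : (p : Ω) ≠ 0) (hpP : ∀ z ∈ P, (p : Ω) * z ≠ 1)
    {c : C} (hpc : p • c = 0) (χ : AddChar C Ω) (hχ : χ c ≠ 1)
    (H : Subalgebra W (C → W))
    (hFR : ∃ d : W, algebraMap W Ω d ≠ 0 ∧ ∀ f : C → W, d • f ∈ H)
    (hΔ : ∀ h ∈ H, ∃ (n : ℕ) (a b : Fin n → (C → W)), (∀ i, a i ∈ H) ∧ (∀ i, b i ∈ H) ∧
      ∀ x y, h (x + y) = ∑ i, a i x * b i y)
    (hloc : ∀ h ∈ H, ∀ x, (p : W) ∣ h x - h 0) : False := by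
  classical
  haveI : Fintype C := Fintype.ofFinite C
  -- the finite `W`-module `N' = image of H` in the `Ω`-valued functions, and the operator `U`
  set N' : Submodule W (C → Ω) := (Subalgebra.toSubmodule H).map (toΩ W Ω C) with hN'
  haveI : Module.Finite W N' :=
    Module.Finite.of_fg ((IsNoetherian.noetherian (Subalgebra.toSubmodule H)).map _)
  set U : Module.End Ω (C → Ω) := diffOp Ω p c with hU
  have hstab : ∀ n ∈ N', (U.restrictScalars W) n ∈ N' := by
    rintro _ ⟨h, hh, rfl⟩
    obtain ⟨g, hg, hgx⟩ := exists_diff_eq_mul H hΔ hloc c hh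
    refine ⟨g, hg, ?_⟩
    funext x
    simp only [hU, LinearMap.restrictScalars_apply, toΩ_apply, diffOp_apply]
    rw [← map_sub, hgx x, map_mul, map_natCast]
    field_simp
  -- Cayley–Hamilton
  obtain ⟨q, hqm, hq⟩ := LinearMap.exists_monic_and_aeval_eq_zero W
    ((U.restrictScalars W).restrict hstab)
  have hvan : ∀ n ∈ N', aeval U q n = 0 := by
    intro n hn
    have := map_aeval_apply (S := Ω) N'.subtype ((U.restrictScalars W).restrict hstab) U
      (fun n => rfl) q ⟨n, hn⟩
    rw [hq, LinearMap.zero_apply, map_zero] at this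
    exact this.symm
  -- the eigenvector `χ`
  set y : Ω := (χ c - 1) * (p : Ω)⁻¹ with hy
  have hUχ : U (χ : C → Ω) = y • (χ : C → Ω) := by
    funext x
    simp only [hU, diffOp_apply, Pi.smul_apply, smul_eq_mul, hy, AddChar.map_add_eq_mul]
    ring
  -- `χ` is in the `Ω`-span of `N'`
  obtain ⟨d, hd0, hd⟩ := hFR
  have hχspan : (χ : C → Ω) =
      ∑ x : C, (χ x * (algebraMap W Ω d)⁻¹) • toΩ W Ω C (d • Pi.single x (1 : W)) := by
    funext z
    rw [Finset.sum_apply]
    simp only [Pi.smul_apply, toΩ_apply, smul_eq_mul, Pi.single_apply, map_mul]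
    rw [Finset.sum_eq_single z]
    · rw [if_pos rfl, map_one, mul_one, mul_assoc, inv_mul_cancel₀ hd0, mul_one]
    · intro b _ hb
      rw [if_neg (Ne.symm hb), map_zero, mul_zero, mul_zero]
    · intro h; exact absurd (Finset.mem_univ z) h
  have hzero : aeval U q (χ : C → Ω) = 0 := by
    rw [hχspan, map_sum]
    refine Finset.sum_eq_zero fun x _ => ?_
    rw [map_smul, hvan _ ⟨_, hd _, rfl⟩, smul_zero]
  -- `y` is integral over `W`
  have hyint : IsIntegral W y := by
    refine ⟨q, hqm, ?_⟩
    have h1 := aeval_apply_of_apply_eq_smul (R := W) U hUχ q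
    rw [hzero] at h1
    have h2 := congrFun h1 0
    simp only [Pi.zero_apply, Pi.smul_apply, smul_eq_mul, AddChar.map_zero_eq_one, mul_one] at h2
    rw [← aeval_def]
    exact h2.symm
  have hyP : y ∈ P := hPint y hyint
  -- the cyclotomic contradiction inside `P`
  have hζ : 1 + (p : Ω) * y = χ c := by
    rw [hy]
    field_simp
    ring
  have hpow : (1 + (p : Ω) * y) ^ p = 1 := by
    rw [hζ, ← AddChar.map_nsmul_eq_pow, hpc, AddChar.map_zero_eq_one]
  have hy0 : y ≠ 0 := by
    intro h0
    rw [h0, mul_zero, add_zero] at hζ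
    exact hχ hζ.symm
  obtain ⟨z, hz⟩ := isUnit_of_one_add_mul_pow_eq_one (R := P) hp hp2
    (fun h => hp0 (by simpa using congrArg (Subring.subtype P) h))
    (y := ⟨y, hyP⟩) (fun h => hy0 (by simpa using congrArg (Subring.subtype P) h))
    (Subtype.ext (by simpa using hpow))
  exact hpP z z.2 (by simpa using congrArg (Subring.subtype P) hz)

end Main

end Fermat.Agent.S33P.HopfExcl64
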